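import Fermat.Agent.AndreJeannin.Coefficients
import Mathlib.Algebra.BigOperators.Field
import Mathlib.Analysis.SpecificLimits.Normed
import Mathlib.Tactic.Linarith
import Mathlib.Tactic.Positivity
import Mathlib.Topology.Algebra.InfiniteSum.Real

/-!
# Little `q`-Legendre forms in a Newton basis

In the basis `∏_{l < i} (1 - p ^ (l + 1) y)` with `p = 1 / q` the coefficients are polynomials in
`q`, and the moments are `∏_{t < i} (1 - p ^ (t + 1)) / ∏_{t ≤ i} (1 - p ^ t y)`.
-/

set_option autoImplicit false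

open Finset

namespace FA.BorweinSeries

open FA.AndreJeannin

section Ring

variable {R : Type*} [CommRing R]

/-- The coefficient in the expansion of `∏_{t < n} (1 - A q ^ t y)`. -/
def nCoef (q A B : R) (n j : ℕ) : R :=
  qbin q n j * A ^ (n - j) * q ^ (∑ t ∈ range (n - j), t) *
    ∏ t ∈ range j, (1 - A * B * q ^ (n + t))

/-- The coefficient in the Newton basis, a polynomial in `q`. -/
def bCoef (q : R) (n i : ℕ) : R :=
  (-1) ^ i * qbin q n i * qbin q (n + i) i * q ^ tri (n - i)

theorem map_bCoef {S : Type*} [CommRing S] (f : R →+* S) (q : R) (n i : ℕ) :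
    f (bCoef q n i) = bCoef (f q) n i := by
  simp [bCoef, map_qbin]

/-- A `q`-Vandermonde identity. -/
theorem prod_one_sub_eq (q A y : R) (n : ℕ) (B : R) :
    ∏ t ∈ range n, (1 - A * q ^ t * y) =
      ∑ j ∈ range (n + 1), nCoef q A B n j *
        ∏ l ∈ Ico j n, (B * q ^ (l + 1) - y) := by
  induction n generalizing B with
  | zero => simp [nCoef, qbin]
  | succ n ih =>
    have hE : ∀ j, ∏ l ∈ Ico j n, (B * q * q ^ (l + 1) - y) =
        ∏ l ∈ Ico (j + 1) (n + 1), (B * q ^ (l + 1) - y) := fun j => by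
      rw [← prod_Ico_add' (fun l => B * q ^ (l + 1) - y) j n 1]
      exact prod_congr rfl fun l _ => by ring
    have hstep : ∀ j ∈ range (n + 1), nCoef q A (B * q) n j *
        (∏ l ∈ Ico j n, (B * q * q ^ (l + 1) - y)) * (1 - A * q ^ n * y) =
        nCoef q A (B * q) n j * (1 - A * B * q ^ (n + 1 + j)) *
            ∏ l ∈ Ico (j + 1) (n + 1), (B * q ^ (l + 1) - y) +
          nCoef q A (B * q) n j * (A * q ^ n) * ∏ l ∈ Ico j (n + 1), (B * q ^ (l + 1) - y) :=
      fun j hj => by
      rw [hE, prod_eq_prod_Ico_succ_bot (mem_range.1 hj) (fun l => B * q ^ (l + 1) - y)]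
      ring
    rw [prod_range_succ, ih (B * q), sum_mul, sum_congr rfl hstep, sum_add_distrib,
      sum_range_succ' (fun j => nCoef q A B (n + 1) j * _),
      sum_range_succ' (fun j => nCoef q A (B * q) n j * (A * q ^ n) * _), ← add_assoc]
    congr 1
    · rw [← add_zero (∑ k ∈ range n, nCoef q A (B * q) n (k + 1) * (A * q ^ n) * _),
        ← zero_mul (A * q ^ n * ∏ l ∈ Ico (n + 1) (n + 1), (B * q ^ (l + 1) - y)),
        show (0 : R) = nCoef q A (B * q) n (n + 1) by simp [nCoef, qbin_of_lt q n.lt_succ_self],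
        ← mul_assoc, ← sum_range_succ (fun k => nCoef q A (B * q) n (k + 1) * (A * q ^ n) *
          ∏ l ∈ Ico (k + 1) (n + 1), (B * q ^ (l + 1) - y)) n, ← sum_add_distrib]
      refine sum_congr rfl fun j hj => ?_
      rw [← add_mul]
      congr 1
      have hP : ∀ i, ∏ t ∈ range i, (1 - A * (B * q) * q ^ (n + t)) =
          ∏ t ∈ range i, (1 - A * B * q ^ (n + 1 + t)) := fun i =>
        prod_congr rfl fun t _ => by ring
      simp only [nCoef, hP, qbin, prod_range_succ, show n + 1 - (j + 1) = n - j by omega]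
      rcases (Nat.lt_succ_iff.1 (mem_range.1 hj)).eq_or_lt with rfl | hlt
      · simp [qbin_of_lt q j.lt_succ_self]
        ring
      · obtain ⟨m, rfl⟩ : ∃ m, n = j + 1 + m := ⟨n - (j + 1), by omega⟩
        rw [show j + 1 + m - (j + 1) = m by omega, show j + 1 + m - j = m + 1 by omega,
          sum_range_succ, pow_add q _ m]
        ring
    · simp only [nCoef, prod_range_zero, Nat.sub_zero, mul_one, sum_range_succ, pow_add]
      cases n with
      | zero => simp [qbin]
      | succ n =>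
        simp [qbin]
        ring

end Ring

section Field

variable {K : Type*} [Field K]

/-- The Newton basis. -/
def newton (p y : K) (i : ℕ) : K := ∏ l ∈ range i, (1 - p ^ (l + 1) * y)

theorem qprod_inv {p : K} (hp : p ≠ 0) (m : ℕ) :
    qprod p⁻¹ m = (-1) ^ m * (p ^ tri m)⁻¹ * qprod p m := by
  induction m with
  | zero => simp [qprod, tri]
  | succ m ih =>
    simp only [qprod, prod_range_succ] at ih ⊢
    rw [ih, show tri (m + 1) = tri m + (m + 1) from sum_range_succ _ _, pow_add p (tri m),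
      pow_succ' (-1 : K) m, mul_inv, inv_pow]
    field_simp
    ring

variable {p q : K} (hpq : p * q = 1) (hp1 : ∀ m, 0 < m → p ^ m ≠ 1)
include hpq hp1

/-- The moments of the polynomial vanish at `y = p ^ (j + 1)` for `j < n`. -/
theorem sum_bCoef_mul (n : ℕ) (y : K) :
    ∑ i ∈ range (n + 1), bCoef q n i * qprod p i * ∏ l ∈ Ico i n, (1 - p ^ (l + 1) * y) =
      ∏ t ∈ range n, (p ^ (t + 1) - y) := by
  have hp : p ≠ 0 := left_ne_zero_of_mul_eq_one hpq
  have hq : q = p⁻¹ := eq_inv_of_mul_eq_one_right hpq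
  have hq0 : q ≠ 0 := right_ne_zero_of_mul_eq_one hpq
  refine mul_left_cancel₀ (pow_ne_zero (tri n) hq0) ?_
  have hR : q ^ tri n * ∏ t ∈ range n, (p ^ (t + 1) - y) =
      ∏ t ∈ range n, (1 - q * q ^ t * y) := by
    rw [tri, ← prod_pow_eq_pow_sum, ← prod_mul_distrib]
    refine prod_congr rfl fun t _ => ?_
    rw [mul_sub, ← mul_pow, mul_comm q p, hpq, one_pow, pow_succ']
  rw [hR, prod_one_sub_eq q q y n 1, mul_sum]
  refine sum_congr rfl fun i hi => ?_
  obtain ⟨m, rfl⟩ := Nat.exists_eq_add_of_le (Nat.lt_succ_iff.1 (mem_range.1 hi))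
  have hprod : q ^ (∑ l ∈ Ico i (i + m), (l + 1)) * ∏ l ∈ Ico i (i + m), (1 - p ^ (l + 1) * y) =
      ∏ l ∈ Ico i (i + m), (1 * q ^ (l + 1) - y) := by
    rw [← prod_pow_eq_pow_sum, ← prod_mul_distrib]
    refine prod_congr rfl fun l _ => ?_
    rw [mul_sub, ← mul_assoc, ← mul_pow, mul_comm q p, hpq, one_pow]
    ring
  have hsum : tri (i + m) = tri i + ∑ l ∈ Ico i (i + m), (l + 1) :=
    (sum_range_add_sum_Ico _ (Nat.le_add_right i m)).symm
  have hi' : q ^ tri i * qprod p i = (-1) ^ i * qprod q i := by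
    rw [hq, qprod_inv hp, ← inv_pow, ← mul_assoc, ← mul_assoc, ← mul_pow, neg_one_mul, neg_neg,
      one_pow, one_mul]
  have hX : (∏ t ∈ range i, (1 - q * 1 * q ^ (i + m + t))) =
      qbin q (i + m + i) i * qprod q i := by
    have hne : qprod q (i + m) ≠ 0 := qprod_ne_zero (fun k hk h => hp1 k hk <| by
      rw [hq, inv_pow, inv_eq_one] at h; exact h) _
    refine mul_left_cancel₀ hne ?_
    have h2 := qbin_add q i (i + m)
    rw [add_comm i (i + m)] at h2
    rw [show qprod q (i + m) * ∏ t ∈ range i, (1 - q * 1 * q ^ (i + m + t)) =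
      qprod q (i + m + i) from ?_, ← h2]
    · ring
    · simp only [qprod, prod_range_add]
      congr 1
      exact prod_congr rfl fun t _ => by ring
  have hq1 : q ^ tri m = q ^ m * q ^ (∑ t ∈ range m, t) := by
    rw [← pow_add, tri, sum_add_distrib, sum_const, card_range, smul_eq_mul, mul_one, add_comm m]
  rw [bCoef, nCoef, Nat.add_sub_cancel_left, hX, ← hprod, hsum, pow_add q (tri i), hq1]
  calc q ^ tri i * q ^ (∑ l ∈ Ico i (i + m), (l + 1)) *
        ((-1) ^ i * qbin q (i + m) i * qbin q (i + m + i) i *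
          (q ^ m * q ^ (∑ t ∈ range m, t)) * qprod p i *
          ∏ l ∈ Ico i (i + m), (1 - p ^ (l + 1) * y))
      = (q ^ tri i * qprod p i) * (-1) ^ i * (qbin q (i + m) i * qbin q (i + m + i) i *
          (q ^ m * q ^ (∑ t ∈ range m, t)) * (q ^ (∑ l ∈ Ico i (i + m), (l + 1)) *
          ∏ l ∈ Ico i (i + m), (1 - p ^ (l + 1) * y))) := by ring
    _ = _ := by
      rw [hi', mul_right_comm ((-1) ^ i) (qprod q i), ← mul_pow, neg_one_mul, neg_neg, one_pow]
      ring

/-- The partial fractions of the moments. -/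
theorem sum_bCoef_moment (n : ℕ) {y : K} (hy : ∀ t, 1 - p ^ t * y ≠ 0) :
    ∑ i ∈ range (n + 1), bCoef q n i * (qprod p i / ∏ t ∈ range (i + 1), (1 - p ^ t * y)) =
      (∏ t ∈ range n, (p ^ (t + 1) - y)) / ∏ t ∈ range (n + 1), (1 - p ^ t * y) := by
  rw [← sum_bCoef_mul hpq hp1, sum_div]
  refine sum_congr rfl fun i hi => ?_
  have h := prod_range_mul_prod_Ico (fun t => 1 - p ^ t * y)
    (show i + 1 ≤ n + 1 from Nat.succ_le_succ (Nat.lt_succ_iff.1 (mem_range.1 hi)))
  rw [← h, ← prod_Ico_add' (fun t => 1 - p ^ t * y) i n 1, mul_div, mul_div_mul_right _ _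
    (prod_ne_zero_iff.2 fun t _ => hy _)]

end Field

end FA.BorweinSeries
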