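import Fermat.Agent.BorweinSeries.Series
import Mathlib.NumberTheory.Real.Irrational

/-!
# Borwein's theorem

After clearing denominators the forms at `x = a q ^ n` are nonzero integers tending to zero.
-/

set_option autoImplicit false

noncomputable section

open Finset FA.AndreJeannin

namespace FA.BorweinSeries

/-- `∏_{l < i} (v - u q ^ (n - l - 1))`. -/
def newtonInt (q u v : ℤ) (n i : ℕ) : ℤ := ∏ l ∈ range i, (v - u * q ^ (n - l - 1))

/-- The cleared rational part. -/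
def restInt (q u v : ℤ) (n : ℕ) : ℕ → ℤ
  | 0 => 0
  | i + 1 => (v - u * q ^ (n - i - 1)) * restInt q u v n i +
      v ^ (i + 1) * ∏ t ∈ (range n).erase i, (q ^ (t + 1) - 1)

/-- The cleared form. -/
def formZ (q u v l d : ℤ) (n : ℕ) : ℤ :=
  ∑ i ∈ range (n + 1), bCoef q n i * v ^ (n - i) *
    (newtonInt q u v n i * (∏ t ∈ range n, (q ^ (t + 1) - 1)) *
        ((∏ k ∈ range n, (u * q ^ k - v)) * l -
          d * ∑ k ∈ range n, v * ∏ j ∈ (range n).erase k, (u * q ^ j - v)) +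
      d * (∏ k ∈ range n, (u * q ^ k - v)) * restInt q u v n i)

section Cast

variable {q u v : ℤ} {p : ℝ} (hpq : p * q = 1) (hv : (v : ℝ) ≠ 0)
include hpq hv

theorem newtonInt_eq {n i : ℕ} (hi : i ≤ n) :
    (newtonInt q u v n i : ℝ) = (v : ℝ) ^ i * newton p ((u : ℝ) * (q : ℝ) ^ n / v) i := by
  rw [newtonInt, newton, Int.cast_prod, ← card_range i, ← prod_const, card_range,
    ← prod_mul_distrib]
  refine prod_congr rfl fun l hl => ?_
  have hl' := mem_range.1 hl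
  have e : p ^ (l + 1) * (q : ℝ) ^ n = (q : ℝ) ^ (n - l - 1) := by
    conv_lhs => rw [show n = (l + 1) + (n - l - 1) by omega, pow_add (q : ℝ), ← mul_assoc,
      ← mul_pow, hpq, one_pow, one_mul]
  push_cast
  rw [← e]
  field_simp

theorem restInt_eq (hp1 : ∀ m, 0 < m → p ^ m ≠ 1) {n i : ℕ} (hi : i ≤ n) :
    (restInt q u v n i : ℝ) = (v : ℝ) ^ i * restTerm p ((u : ℝ) * (q : ℝ) ^ n / v) i *
      ∏ t ∈ range n, ((q : ℝ) ^ (t + 1) - 1) := by
  induction i with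
  | zero => simp [restInt, restTerm]
  | succ i ih =>
    have e : p ^ (i + 1) * (q : ℝ) ^ n = (q : ℝ) ^ (n - i - 1) := by
      conv_lhs => rw [show n = (i + 1) + (n - i - 1) by omega, pow_add (q : ℝ), ← mul_assoc,
        ← mul_pow, hpq, one_pow, one_mul]
    have e2 : p ^ (i + 1) * (1 - p ^ (i + 1))⁻¹ * ((q : ℝ) ^ (i + 1) - 1) = 1 := by
      have h1 : 1 - p ^ (i + 1) ≠ 0 := sub_ne_zero.2 (hp1 _ i.succ_pos).symm
      have h2 : p ^ (i + 1) * (q : ℝ) ^ (i + 1) = 1 := by rw [← mul_pow, hpq, one_pow]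
      field_simp
      linear_combination h2
    rw [restInt, restTerm]
    push_cast
    rw [ih (by omega), ← e,
      ← mul_prod_erase _ (fun t => (q : ℝ) ^ (t + 1) - 1) (mem_range.2 (show i < n by omega))]
    have hvX : (v : ℝ) * (1 - p ^ (i + 1) * ((u : ℝ) * (q : ℝ) ^ n / v)) =
        v - u * (p ^ (i + 1) * (q : ℝ) ^ n) := by
      field_simp
    linear_combination
      (-((v : ℝ) ^ (i + 1) * ∏ t ∈ (range n).erase i, ((q : ℝ) ^ (t + 1) - 1))) * e2 -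
      ((v : ℝ) ^ i * restTerm p ((u : ℝ) * (q : ℝ) ^ n / v) i * (((q : ℝ) ^ (i + 1) - 1) *
        ∏ t ∈ (range n).erase i, ((q : ℝ) ^ (t + 1) - 1))) * hvX

theorem formZ_eq (hp1 : ∀ m, 0 < m → p ^ m ≠ 1) (l d : ℤ) {L : ℝ} {n : ℕ}
    (hne : ∀ k, (u : ℝ) * (q : ℝ) ^ k - v ≠ 0) (hd : (d : ℝ) * L = l) :
    (formZ q u v l d n : ℝ) = d * (v : ℝ) ^ n * (∏ t ∈ range n, ((q : ℝ) ^ (t + 1) - 1)) *
      (∏ k ∈ range n, ((u : ℝ) * (q : ℝ) ^ k - v)) *
        borweinForm p q ((u : ℝ) * (q : ℝ) ^ n / v)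
          (L - ∑ k ∈ range n, (v : ℝ) / ((u : ℝ) * (q : ℝ) ^ k - v)) n := by
  have hS : (∏ k ∈ range n, ((u : ℝ) * (q : ℝ) ^ k - v)) *
      (∑ k ∈ range n, (v : ℝ) / ((u : ℝ) * (q : ℝ) ^ k - v)) =
        ∑ k ∈ range n, (v : ℝ) * ∏ j ∈ (range n).erase k, ((u : ℝ) * (q : ℝ) ^ j - v) := by
    rw [mul_sum]
    refine sum_congr rfl fun k hk => ?_
    rw [← mul_prod_erase _ _ hk, mul_comm (_ * _), ← mul_assoc, div_mul_cancel₀ _ (hne k)]
  rw [formZ, borweinForm, Int.cast_sum]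
  conv_rhs => rw [mul_sum]
  refine sum_congr rfl fun i hi => ?_
  have hi' := Nat.lt_succ_iff.1 (mem_range.1 hi)
  have hb : ((bCoef q n i : ℤ) : ℝ) = bCoef (q : ℝ) n i := map_bCoef (Int.castRingHom ℝ) q n i
  push_cast
  rw [newtonInt_eq hpq hv hi', restInt_eq hpq hv hp1 hi', hb, ← hS, ← hd,
    ← pow_sub_mul_pow (v : ℝ) hi']
  ring

end Cast

theorem two_pow_le_pow {s : ℝ} (hs : 2 ≤ s) (m : ℕ) : (1 : ℝ) ≤ s ^ m := one_le_pow₀ (by linarith)

/-- `∑ v / (u q ^ k - v)` is irrational. -/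
theorem no_rational_sum (q : ℤ) (hq : 2 ≤ |q|) (u v l d : ℤ) (hu : u ≠ 0) (hv : v ≠ 0)
    (hd : d ≠ 0) (hne : ∀ k : ℕ, u * q ^ k ≠ v)
    (h : HasSum (fun k : ℕ => (v : ℝ) / ((u : ℝ) * (q : ℝ) ^ k - v)) ((l : ℝ) / d)) : False := by
  have hs : (2 : ℝ) ≤ |(q : ℝ)| := by exact_mod_cast hq
  have hq0 : (q : ℝ) ≠ 0 := by
    intro h0
    rw [h0, abs_zero] at hs
    linarith
  set p : ℝ := (q : ℝ)⁻¹ with hp
  have hpq : p * q = 1 := inv_mul_cancel₀ hq0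
  have hr : |p| ≤ 1 / 2 := by
    rw [hp, abs_inv, one_div]
    exact inv_anti₀ (by norm_num) hs
  have hv0 : (v : ℝ) ≠ 0 := Int.cast_ne_zero.2 hv
  have hd0 : (d : ℝ) ≠ 0 := Int.cast_ne_zero.2 hd
  have hu1 : (1 : ℝ) ≤ |(u : ℝ)| := by exact_mod_cast Int.one_le_abs hu
  have hne' : ∀ k, (u : ℝ) * (q : ℝ) ^ k - v ≠ 0 := fun k =>
    sub_ne_zero.2 (by exact_mod_cast hne k)
  set C : ℝ := 2 * (|(u : ℝ)| + |(v : ℝ)|) * |(v : ℝ)| ^ 2 with hC
  have hC0 : 0 ≤ C := by positivity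
  set c : ℝ := 20 * |(d : ℝ)| * |(v : ℝ)| with hc
  obtain ⟨m, hm⟩ := pow_unbounded_of_one_lt (2 * C) (show (1 : ℝ) < 2 by norm_num)
  obtain ⟨n0, hn0⟩ := pow_unbounded_of_one_lt (c + 1000 * |(v : ℝ)|) (show (1 : ℝ) < 2 by norm_num)
  set n := n0 + 2 * m with hn
  have hn1 : c + 1000 * |(v : ℝ)| < 2 ^ n :=
    hn0.trans_le (pow_le_pow_right₀ (by norm_num) (by omega))
  have hrn : ∀ k : ℕ, |p| ^ k ≤ 1 / 2 ^ k := fun k => by
    rw [← one_div_pow]
    exact pow_le_pow_left₀ (abs_nonneg _) hr k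
  set x : ℝ := (u : ℝ) * (q : ℝ) ^ n / v with hx
  have hxinv : |x|⁻¹ ≤ |(v : ℝ)| * |p| ^ n := by
    rw [hx, abs_div, abs_mul, abs_pow, inv_div, hp, abs_inv, inv_pow, ← div_eq_mul_inv]
    exact div_le_div_of_nonneg_left (abs_nonneg _) (pow_pos (by linarith) _)
      (le_mul_of_one_le_left (pow_nonneg (abs_nonneg _) _) hu1)
  have hc0 : 0 ≤ c := by positivity
  have hsmall : |x|⁻¹ ≤ 1 / 1000 := by
    refine hxinv.trans ((mul_le_mul_of_nonneg_left (hrn n) (abs_nonneg _)).trans ?_)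
    rw [mul_one_div, div_le_div_iff₀ (pow_pos (by norm_num) _) (by norm_num), one_mul]
    linarith
  have hxne : x ≠ 0 := div_ne_zero (mul_ne_zero (Int.cast_ne_zero.2 hu) (pow_ne_zero _ hq0)) hv0
  have hx1 : 1 < |x| := by
    have hpos : 0 < |x| := abs_pos.2 hxne
    have : 1 ≤ |x| * (1 / 1000) := by
      calc (1 : ℝ) = |x| * |x|⁻¹ := (mul_inv_cancel₀ hpos.ne').symm
        _ ≤ _ := mul_le_mul_of_nonneg_left hsmall hpos.le
    linarith
  have hL : HasSum (fun k : ℕ => p ^ k / (x - p ^ k))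
      ((l : ℝ) / d - ∑ k ∈ range n, (v : ℝ) / ((u : ℝ) * (q : ℝ) ^ k - v)) := by
    refine ((hasSum_nat_add_iff' n).2 h).congr_fun fun k => ?_
    have h1 := x_sub_pow_ne_zero hr hx1 k
    have h2 := hne' (k + n)
    have h3 : p ^ k * (q : ℝ) ^ k = 1 := by rw [← mul_pow, hpq, one_pow]
    have h4 : x * v = (u : ℝ) * (q : ℝ) ^ n := div_mul_cancel₀ _ hv0
    rw [pow_add] at h2 ⊢
    rw [div_eq_div_iff h1 h2]
    linear_combination ((u : ℝ) * (q : ℝ) ^ n) * h3 - h4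
  obtain ⟨b1, b2⟩ := borweinForm_bounds hr hpq n hx1 hsmall hL
  have hZ := formZ_eq (u := u) hpq hv0 (pow_ne_one_of_small hr) l d (n := n) hne'
    (mul_div_cancel₀ (l : ℝ) hd0)
  have hQ : ∀ t : ℕ, (q : ℝ) ^ (t + 1) - 1 ≠ 0 := fun t h0 => by
    have h1 := le_self_pow₀ (show (1 : ℝ) ≤ |(q : ℝ)| by linarith) t.succ_ne_zero
    rw [← abs_pow, sub_eq_zero.1 h0, abs_one] at h1
    linarith
  have hz0 : formZ q u v l d n ≠ 0 := fun h0 => by
    rw [h0, Int.cast_zero] at hZ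
    exact mul_ne_zero (mul_ne_zero (mul_ne_zero (mul_ne_zero hd0 (pow_ne_zero _ hv0))
      (prod_ne_zero_iff.2 fun t _ => hQ t)) (prod_ne_zero_iff.2 fun k _ => hne' k)) b1 hZ.symm
  have h1 : (1 : ℝ) ≤ |(formZ q u v l d n : ℝ)| := by exact_mod_cast Int.one_le_abs hz0
  have hQb : ∏ t ∈ range n, |(q : ℝ) ^ (t + 1) - 1| ≤ 2 ^ n * |(q : ℝ)| ^ tri n := by
    refine (prod_le_prod (fun t _ => abs_nonneg _) fun t _ =>
      (?_ : _ ≤ 2 * |(q : ℝ)| ^ (t + 1))).trans (le_of_eq ?_)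
    · have := abs_sub ((q : ℝ) ^ (t + 1)) 1
      rw [abs_one, abs_pow] at this
      linarith [two_pow_le_pow hs (t + 1)]
    · rw [prod_mul_distrib, prod_const, card_range, prod_pow_eq_pow_sum, ← tri]
  have hPb : ∏ k ∈ range n, |(u : ℝ) * (q : ℝ) ^ k - v| ≤
      (|(u : ℝ)| + |(v : ℝ)|) ^ n * |(q : ℝ)| ^ ∑ k ∈ range n, k := by
    refine (prod_le_prod (fun k _ => abs_nonneg _) fun k _ =>
      (?_ : _ ≤ (|(u : ℝ)| + |(v : ℝ)|) * |(q : ℝ)| ^ k)).trans (le_of_eq ?_)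
    · have := abs_sub ((u : ℝ) * (q : ℝ) ^ k) v
      rw [abs_mul, abs_pow] at this
      nlinarith [two_pow_le_pow hs k, abs_nonneg (v : ℝ)]
    · rw [prod_mul_distrib, prod_const, card_range, prod_pow_eq_pow_sum]
  have hJ : |borweinForm p q x ((l : ℝ) / d -
      ∑ k ∈ range n, (v : ℝ) / ((u : ℝ) * (q : ℝ) ^ k - v)) n| ≤
      20 * |p| ^ tri n * (|(v : ℝ)| ^ (n + 1) * |p| ^ (n * (n + 1))) := by
    refine b2.trans (mul_le_mul_of_nonneg_left ?_ (by positivity))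
    rw [pow_mul, ← mul_pow]
    exact pow_le_pow_left₀ (inv_nonneg.2 (abs_nonneg _)) hxinv _
  rw [hZ, abs_mul, abs_mul, abs_mul, abs_mul, abs_pow, abs_prod, abs_prod, ← hx] at h1
  have h2 := h1.trans (mul_le_mul (mul_le_mul (mul_le_mul_of_nonneg_left hQb (by positivity)) hPb
    (prod_nonneg fun k _ => abs_nonneg _) (by positivity)) hJ (abs_nonneg _) (by positivity))
  have htri : tri n + ∑ k ∈ range n, k = n * n := by
    rw [tri, ← sum_add_distrib]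
    generalize n = N
    induction N with
    | zero => rfl
    | succ N ih => rw [sum_range_succ, ih]; ring
  have hrs : |p| * |(q : ℝ)| = 1 := by rw [← abs_mul, hpq, abs_one]
  have hp1 : ∀ a b : ℕ, b ≤ a → |p| ^ a ≤ |p| ^ b := fun a b hab =>
    pow_le_pow_of_le_one (abs_nonneg _) (by linarith) hab
  have hT : |p| ^ (tri n + n) ≤ (1 / 2 ^ m) ^ n :=
    (hp1 _ (m * n) (by nlinarith [two_mul_tri n])).trans
      (by rw [pow_mul]; exact pow_le_pow_left₀ (pow_nonneg (abs_nonneg _) _) (hrn m) n)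
  have hfin : (1 : ℝ) ≤ c * (1 / 2) ^ n := by
    refine h2.trans ?_
    calc |(d : ℝ)| * |(v : ℝ)| ^ n * (2 ^ n * |(q : ℝ)| ^ tri n) *
          ((|(u : ℝ)| + |(v : ℝ)|) ^ n * |(q : ℝ)| ^ ∑ k ∈ range n, k) *
          (20 * |p| ^ tri n * (|(v : ℝ)| ^ (n + 1) * |p| ^ (n * (n + 1))))
        = c * C ^ n * (|p| ^ (tri n + n) *
            ((|p| ^ (n * n)) * (|(q : ℝ)| ^ (tri n + ∑ k ∈ range n, k)))) := by
          rw [hC, hc, mul_pow, mul_pow]
          ring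
      _ = c * C ^ n * |p| ^ (tri n + n) := by
          rw [htri, ← mul_pow, hrs, one_pow, mul_one]
      _ ≤ c * C ^ n * (1 / 2 ^ m) ^ n := by gcongr
      _ = c * (C / 2 ^ m) ^ n := by rw [mul_assoc, ← mul_pow, mul_one_div]
      _ ≤ _ := by
          refine mul_le_mul_of_nonneg_left (pow_le_pow_left₀ (by positivity) ?_ n) hc0
          rw [div_le_iff₀ (by positivity)]
          linarith
  rw [one_div_pow, mul_one_div, le_div_iff₀ (pow_pos (by norm_num) _), one_mul] at hfin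
  linarith [abs_nonneg (v : ℝ)]

theorem summable_borwein (q : ℤ) (hq : 2 ≤ |q|) (r : ℝ) :
    Summable fun n : ℕ => 1 / ((q : ℝ) ^ (n + 1) + r) := by
  have hs : (2 : ℝ) ≤ |(q : ℝ)| := by exact_mod_cast hq
  obtain ⟨N, hN⟩ := pow_unbounded_of_one_lt (2 * |r|) (show (1 : ℝ) < 2 by norm_num)
  refine (summable_nat_add_iff N).1 (Summable.of_norm_bounded
    ((summable_geometric_of_lt_one (show (0 : ℝ) ≤ 1 / 2 by norm_num) (by norm_num)).mul_left 2)
    fun n => ?_)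
  have h1 : (2 : ℝ) ^ (n + N + 1) ≤ |(q : ℝ)| ^ (n + N + 1) :=
    pow_le_pow_left₀ (by norm_num) hs _
  have h2 := abs_sub_abs_le_abs_sub ((q : ℝ) ^ (n + N + 1)) (-r)
  rw [sub_neg_eq_add, abs_neg, abs_pow] at h2
  have h3 : (2 : ℝ) ^ N ≤ 2 ^ (n + N) := pow_le_pow_right₀ (by norm_num) (by omega)
  have h4 : (2 : ℝ) ^ n ≤ 2 ^ (n + N) := pow_le_pow_right₀ (by norm_num) (by omega)
  rw [pow_succ] at h1
  rw [Real.norm_eq_abs, abs_div, abs_one, one_div_pow]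
  calc 1 / |(q : ℝ) ^ (n + N + 1) + r| ≤ 1 / (2 ^ n / 2) :=
        one_div_le_one_div_of_le (by positivity)
          (by linarith [abs_nonneg r, pow_pos (show (0 : ℝ) < 2 by norm_num) n])
    _ = 2 * (1 / 2 ^ n) := by ring

/-- Borwein's theorem. -/
theorem irrational_borwein (q : ℤ) (hq : 2 ≤ |q|) (r : ℚ) (hr0 : r ≠ 0)
    (hr : ∀ n : ℕ, 1 ≤ n → r ≠ -(q : ℚ) ^ n) :
    Irrational (∑' n : ℕ, 1 / ((q : ℝ) ^ (n + 1) + (r : ℝ))) := by
  rintro ⟨t, ht⟩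
  have hnum : r.num ≠ 0 := Rat.num_ne_zero.2 hr0
  have hden : (r.den : ℝ) ≠ 0 := Nat.cast_ne_zero.2 r.den_nz
  have hq0 : q ≠ 0 := by rintro rfl; simp at hq
  have hsum := ((summable_borwein q hq r).hasSum.mul_left (-(r : ℝ)))
  rw [← ht] at hsum
  have hrr : (r : ℝ) = (r.num : ℝ) / r.den := by exact_mod_cast (Rat.num_div_den r).symm
  refine no_rational_sum q hq (-q * r.den) r.num (-(r * t)).num (-(r * t)).den
    (mul_ne_zero (neg_ne_zero.2 hq0) (Int.natCast_ne_zero.2 r.den_nz)) hnum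
    (Int.natCast_ne_zero.2 (Rat.den_nz _)) (fun k hk => hr (k + 1) (by omega) ?_) ?_
  · rw [← Rat.num_div_den r, ← hk]
    push_cast
    field_simp
    ring
  · have e : ((-(r * t)).num : ℝ) / (((-(r * t)).den : ℤ) : ℝ) = -(r : ℝ) * t := by
      rw [Int.cast_natCast, ← Rat.cast_natCast, ← Rat.cast_intCast, ← Rat.cast_div,
        Rat.num_div_den]
      push_cast
      ring
    rw [e]
    refine hsum.congr_fun fun k => ?_
    have h1 : ((q : ℝ) ^ (k + 1) * r.den + r.num) ≠ 0 := fun h0 => hr (k + 1) (by omega) (by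
      have h' : ((q : ℚ) ^ (k + 1) * r.den + r.num) = 0 := by exact_mod_cast h0
      rw [← Rat.num_div_den r, div_eq_iff (by exact_mod_cast r.den_nz)]
      linear_combination h')
    rw [hrr]
    push_cast
    rw [show -(q : ℝ) * r.den * (q : ℝ) ^ k - r.num = -((q : ℝ) ^ (k + 1) * r.den + r.num) by ring]
    field_simp

end FA.BorweinSeries
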