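import Fermat.Agent.BorweinSeries.Forms

/-!
# The size of the forms

For `|p| ≤ 1 / 2` and large `|x|` the form is of exact order `|p| ^ T |x| ^ (-n - 1)`.
-/

set_option autoImplicit false

noncomputable section

open Finset FA.AndreJeannin

namespace FA.BorweinSeries

theorem weierstrass_le_prod {ι : Type*} (s : Finset ι) (u : ι → ℝ) (h0 : ∀ i ∈ s, 0 ≤ u i)
    (h1 : ∀ i ∈ s, u i ≤ 1) : 1 - ∑ i ∈ s, u i ≤ ∏ i ∈ s, (1 - u i) := by
  classical
  induction s using Finset.induction with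
  | empty => simp
  | @insert a s ha ih =>
    rw [sum_insert ha, prod_insert ha]
    have := ih (fun i hi => h0 i (mem_insert_of_mem hi)) (fun i hi => h1 i (mem_insert_of_mem hi))
    have hs : 0 ≤ ∑ i ∈ s, u i := sum_nonneg fun i hi => h0 i (mem_insert_of_mem hi)
    nlinarith [h0 a (mem_insert_self a s), h1 a (mem_insert_self a s)]

variable {p : ℝ} (hr : |p| ≤ 1 / 2)
include hr

theorem abs_pow_le_one (m : ℕ) : |p| ^ m ≤ 1 := pow_le_one₀ (abs_nonneg _) (by linarith)

theorem abs_pow_lt_one {m : ℕ} (hm : m ≠ 0) : |p ^ m| < 1 := by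
  rw [abs_pow]
  exact pow_lt_one₀ (abs_nonneg _) (by linarith) hm

theorem pow_ne_one_of_small (m : ℕ) (hm : 0 < m) : p ^ m ≠ 1 := fun h => by
  have := abs_pow_lt_one hr hm.ne'
  rw [h, abs_one] at this
  exact lt_irrefl _ this

theorem quarter_le_prod (n : ℕ) : 1 / 4 ≤ ∏ l ∈ range n, (1 - |p| ^ (l + 1)) := by
  cases n with
  | zero => norm_num
  | succ n =>
    rw [prod_range_succ', zero_add, pow_one]
    have h := weierstrass_le_prod (range n) (fun l => |p| ^ (l + 1 + 1))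
      (fun l _ => pow_nonneg (abs_nonneg _) _) fun l _ => abs_pow_le_one hr _
    have hs := (summable_geometric_of_lt_one (abs_nonneg p) (by linarith)).sum_le_tsum (range n)
      fun i _ => pow_nonneg (abs_nonneg p) i
    rw [tsum_geometric_of_lt_one (abs_nonneg p) (by linarith)] at hs
    have e : ∑ l ∈ range n, |p| ^ (l + 1 + 1) = |p| ^ 2 * ∑ l ∈ range n, |p| ^ l := by
      rw [mul_sum]
      exact sum_congr rfl fun l _ => by ring
    have h2 : |p| ^ 2 * (1 - |p|)⁻¹ ≤ 1 / 2 := by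
      rw [← div_eq_mul_inv, div_le_iff₀ (by linarith)]
      nlinarith [abs_nonneg p]
    have h3 : 1 / 2 ≤ ∏ l ∈ range n, (1 - |p| ^ (l + 1 + 1)) := by
      rw [e] at h
      nlinarith [sq_nonneg |p|]
    nlinarith

theorem prod_abs_bounds (n : ℕ) (v : ℕ → ℝ) (hv : ∀ l < n, |v l| ≤ |p| ^ (l + 1)) :
    1 / 4 ≤ ∏ l ∈ range n, |1 - v l| ∧ ∏ l ∈ range n, |1 - v l| ≤ 4 := by
  have h0 : ∀ l, 0 ≤ 1 - |p| ^ (l + 1) := fun l => by linarith [abs_pow_le_one hr (l + 1)]
  have hb : ∀ l ∈ range n, 1 - |p| ^ (l + 1) ≤ |1 - v l| ∧ |1 - v l| ≤ 1 + |p| ^ (l + 1) := by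
    intro l hl
    have := hv l (mem_range.1 hl)
    have h1 := abs_sub_abs_le_abs_sub 1 (v l)
    have h2 := abs_sub 1 (v l)
    rw [abs_one] at h1 h2
    constructor <;> linarith
  refine ⟨(quarter_le_prod hr n).trans (prod_le_prod (fun l _ => h0 l) fun l hl => (hb l hl).1),
    (prod_le_prod (fun l _ => abs_nonneg _) fun l hl => (hb l hl).2).trans ?_⟩
  have hmul : (∏ l ∈ range n, (1 + |p| ^ (l + 1))) * ∏ l ∈ range n, (1 - |p| ^ (l + 1)) ≤ 1 := by
    rw [← prod_mul_distrib]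
    refine prod_le_one (fun l _ => ?_) fun l _ => ?_ <;>
      nlinarith [h0 l, pow_nonneg (abs_nonneg p) (l + 1)]
  have hpos : 0 ≤ ∏ l ∈ range n, (1 + |p| ^ (l + 1)) := prod_nonneg fun l _ => by positivity
  nlinarith [quarter_le_prod hr n]

theorem one_sub_pow_mul_ne_zero {y : ℝ} (hy : |y| < 1) (t : ℕ) : 1 - p ^ t * y ≠ 0 := fun h => by
  have := congrArg abs (sub_eq_zero.1 h)
  rw [abs_one, abs_mul, abs_pow] at this
  nlinarith [abs_pow_le_one hr t, abs_nonneg y]

/-- The moments of the Newton basis. -/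
theorem hasSum_moment (i : ℕ) {y : ℝ} (hy : |y| < 1) :
    HasSum (fun k : ℕ => y ^ k * newton p (p ^ k) i)
      (qprod p i / ∏ t ∈ range (i + 1), (1 - p ^ t * y)) := by
  induction i generalizing y with
  | zero => simpa [newton, qprod] using hasSum_geometric_of_abs_lt_one hy
  | succ i ih =>
    have hy' : |p * y| < 1 := by
      rw [abs_mul]
      nlinarith [abs_nonneg y]
    have h := (ih hy).sub ((ih hy').mul_left (p ^ (i + 1)))
    have e : qprod p i / ∏ t ∈ range (i + 1), (1 - p ^ t * y) -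
        p ^ (i + 1) * (qprod p i / ∏ t ∈ range (i + 1), (1 - p ^ t * (p * y))) =
        qprod p (i + 1) / ∏ t ∈ range (i + 1 + 1), (1 - p ^ t * y) := by
      have e1 : ∏ t ∈ range (i + 1 + 1), (1 - p ^ t * y) =
          (∏ t ∈ range (i + 1), (1 - p ^ t * y)) * (1 - p ^ (i + 1) * y) := prod_range_succ _ _
      have e2 : ∏ t ∈ range (i + 1 + 1), (1 - p ^ t * y) =
          (∏ t ∈ range (i + 1), (1 - p ^ t * (p * y))) * (1 - y) := by
        rw [prod_range_succ', pow_zero, one_mul]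
        congr 1
        exact prod_congr rfl fun t _ => by ring
      have n1 : ∏ t ∈ range (i + 1), (1 - p ^ t * y) ≠ 0 :=
        prod_ne_zero_iff.2 fun t _ => one_sub_pow_mul_ne_zero hr hy t
      have n2 : ∏ t ∈ range (i + 1), (1 - p ^ t * (p * y)) ≠ 0 :=
        prod_ne_zero_iff.2 fun t _ => one_sub_pow_mul_ne_zero hr hy' t
      have n3 : ∏ t ∈ range (i + 1 + 1), (1 - p ^ t * y) ≠ 0 :=
        prod_ne_zero_iff.2 fun t _ => one_sub_pow_mul_ne_zero hr hy t
      have hq : qprod p (i + 1) = qprod p i * (1 - p ^ (i + 1)) := prod_range_succ _ _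
      have hrel := e1.symm.trans e2
      rw [e1] at n3 ⊢
      rw [hq]
      generalize (∏ t ∈ range (i + 1), (1 - p ^ t * y)) = A at n1 n3 hrel ⊢
      generalize (∏ t ∈ range (i + 1), (1 - p ^ t * (p * y))) = B at n2 hrel ⊢
      have n4 := (mul_ne_zero_iff.1 n3).2
      generalize hf : 1 - p ^ (i + 1) * y = f at n3 n4 hrel ⊢
      field_simp
      linear_combination (-(qprod p i) * p ^ (i + 1)) * hrel + (qprod p i * B) * hf.symm
    rw [← e]
    refine h.congr_fun fun k => ?_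
    rw [newton, prod_range_succ, ← newton, mul_pow]
    ring

/-- At `y = p` the moment is `1 / (1 - p ^ (i + 1))`. -/
theorem hasSum_moment_self (i : ℕ) :
    HasSum (fun k : ℕ => p ^ k * newton p (p ^ k) i) (1 - p ^ (i + 1))⁻¹ := by
  have h := hasSum_moment hr i (y := p) (by linarith)
  have e : ∏ t ∈ range (i + 1), (1 - p ^ t * p) = qprod p i * (1 - p ^ (i + 1)) := by
    rw [prod_range_succ, ← pow_succ, qprod]
    simp only [pow_succ]
  rwa [e, ← div_div, div_self (qprod_ne_zero (pow_ne_one_of_small hr) i), one_div] at h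

omit hr in
/-- The rational part of `∑ p ^ k e_i (p ^ k) / (x - p ^ k)`. -/
def restTerm (p x : ℝ) : ℕ → ℝ
  | 0 => 0
  | i + 1 => (1 - p ^ (i + 1) * x) * restTerm p x i + p ^ (i + 1) * (1 - p ^ (i + 1))⁻¹

theorem x_sub_pow_ne_zero {x : ℝ} (hx : 1 < |x|) (k : ℕ) : x - p ^ k ≠ 0 := fun h => by
  rw [sub_eq_zero.1 h, abs_pow] at hx
  linarith [abs_pow_le_one hr k]

theorem hasSum_newton_div {x L : ℝ} (hx : 1 < |x|)
    (hL : HasSum (fun k : ℕ => p ^ k / (x - p ^ k)) L) (i : ℕ) :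
    HasSum (fun k : ℕ => p ^ k * newton p (p ^ k) i / (x - p ^ k))
      (newton p x i * L + restTerm p x i) := by
  induction i with
  | zero => simpa [newton, restTerm] using hL
  | succ i ih =>
    have h := (ih.mul_left (1 - p ^ (i + 1) * x)).add
      ((hasSum_moment_self hr i).mul_left (p ^ (i + 1)))
    have e : (1 - p ^ (i + 1) * x) * (newton p x i * L + restTerm p x i) +
        p ^ (i + 1) * (1 - p ^ (i + 1))⁻¹ = newton p x (i + 1) * L + restTerm p x (i + 1) := by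
      rw [restTerm, newton, newton, prod_range_succ]
      ring
    rw [← e]
    refine h.congr_fun fun k => ?_
    rw [show newton p (p ^ k) (i + 1) = newton p (p ^ k) i * (1 - p ^ (i + 1) * p ^ k) from
      prod_range_succ _ _]
    have := x_sub_pow_ne_zero hr hx k
    field_simp
    ring

omit hr in
/-- The form. -/
def borweinForm (p q x L : ℝ) (n : ℕ) : ℝ :=
  ∑ i ∈ range (n + 1), bCoef q n i * (newton p x i * L + restTerm p x i)

omit hr in
/-- The coefficients of its expansion. -/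
def momentSum (p q : ℝ) (n j : ℕ) : ℝ :=
  ∑ i ∈ range (n + 1), bCoef q n i * (qprod p i / ∏ t ∈ range (i + 1), (1 - p ^ t * p ^ (j + 1)))

theorem hasSum_expansion {x L : ℝ} (hx : 1 < |x|)
    (hL : HasSum (fun k : ℕ => p ^ k / (x - p ^ k)) L) (q : ℝ) (n : ℕ) :
    HasSum (fun j => x⁻¹ ^ (j + 1) * momentSum p q n j) (borweinForm p q x L n) := by
  simp only [momentSum, mul_sum]
  refine hasSum_sum fun i _ => ?_
  suffices h : HasSum (fun j => x⁻¹ ^ (j + 1) *
      (qprod p i / ∏ t ∈ range (i + 1), (1 - p ^ t * p ^ (j + 1))))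
      (newton p x i * L + restTerm p x i) from
    (h.mul_left (bCoef q n i)).congr_fun fun j => by ring
  have hX : |x⁻¹| < 1 := by rw [abs_inv]; exact inv_lt_one_of_one_lt₀ hx
  have he : ∀ k, |newton p (p ^ k) i| ≤ 2 ^ i := fun k => by
    rw [newton, abs_prod]
    refine (prod_le_prod (fun l _ => abs_nonneg _) fun l _ => (?_ : |1 - p ^ (l + 1) * p ^ k| ≤ 2)
      ).trans (le_of_eq (by rw [prod_const, card_range]))
    have h := abs_sub (1 : ℝ) (p ^ (l + 1) * p ^ k)
    rw [abs_one, ← pow_add, abs_pow] at h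
    rw [← pow_add]
    linarith [abs_pow_le_one hr (l + 1 + k)]
  have hs : Summable fun z : ℕ × ℕ =>
      x⁻¹ ^ (z.2 + 1) * ((p ^ (z.2 + 1)) ^ z.1 * newton p (p ^ z.1) i) := by
    refine Summable.of_norm_bounded (Summable.mul_of_nonneg ((summable_geometric_of_lt_one
      (abs_nonneg p) (by linarith)).mul_left (2 ^ i)) (((summable_geometric_of_lt_one
      (abs_nonneg x⁻¹) hX).mul_left |x⁻¹|)) (fun k => by positivity) fun j => by positivity)
      fun z => ?_
    rw [Real.norm_eq_abs, abs_mul, abs_mul, abs_pow, abs_pow, abs_pow, ← pow_succ', ← pow_mul,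
      mul_comm]
    refine mul_le_mul_of_nonneg_right ?_ (by positivity)
    rw [mul_comm]
    exact mul_le_mul (he _) (pow_le_pow_of_le_one (abs_nonneg _) (by linarith)
      (Nat.le_mul_of_pos_left _ (Nat.succ_pos _))) (by positivity) (by positivity)
  have h1 : ∀ k : ℕ, HasSum (fun j => x⁻¹ ^ (j + 1) * ((p ^ (j + 1)) ^ k * newton p (p ^ k) i))
      (p ^ k * newton p (p ^ k) i / (x - p ^ k)) := fun k => by
    have hq : |p ^ k * x⁻¹| < 1 := by
      rw [abs_mul, abs_pow]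
      calc |p| ^ k * |x⁻¹| ≤ 1 * |x⁻¹| :=
            mul_le_mul_of_nonneg_right (abs_pow_le_one hr k) (abs_nonneg _)
        _ < 1 := by rwa [one_mul]
    have h := (hasSum_geometric_of_abs_lt_one hq).mul_left (p ^ k * newton p (p ^ k) i * x⁻¹)
    have e : p ^ k * newton p (p ^ k) i / (x - p ^ k) =
        p ^ k * newton p (p ^ k) i * x⁻¹ * (1 - p ^ k * x⁻¹)⁻¹ := by
      have h0 : x ≠ 0 := fun h => by rw [h, abs_zero] at hx; linarith
      rw [mul_assoc _ x⁻¹, ← mul_inv, mul_sub, mul_one, mul_left_comm x, mul_inv_cancel₀ h0,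
        mul_one, div_eq_mul_inv]
    rw [e]
    exact h.congr_fun fun j => by ring
  have hv := hs.hasSum.prod_fiberwise h1
  have h2 : ∀ j : ℕ, HasSum (fun k => x⁻¹ ^ (j + 1) * ((p ^ (j + 1)) ^ k * newton p (p ^ k) i))
      (x⁻¹ ^ (j + 1) * (qprod p i / ∏ t ∈ range (i + 1), (1 - p ^ t * p ^ (j + 1)))) := fun j =>
    (hasSum_moment hr i (abs_pow_lt_one hr j.succ_ne_zero)).mul_left _
  have hw := ((Equiv.prodComm ℕ ℕ).hasSum_iff.2 hs.hasSum).prod_fiberwise h2
  rwa [(hasSum_newton_div hr hx hL i).unique hv]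

variable {q : ℝ} (hpq : p * q = 1)
include hpq

theorem momentSum_eq (n j : ℕ) : momentSum p q n j =
    (∏ t ∈ range n, (p ^ (t + 1) - p ^ (j + 1))) /
      ∏ t ∈ range (n + 1), (1 - p ^ t * p ^ (j + 1)) :=
  sum_bCoef_moment hpq (pow_ne_one_of_small hr) n
    (one_sub_pow_mul_ne_zero hr (abs_pow_lt_one hr j.succ_ne_zero))

theorem momentSum_of_lt {n j : ℕ} (h : j < n) : momentSum p q n j = 0 := by
  rw [momentSum_eq hr hpq, prod_eq_zero (mem_range.2 h) (sub_self _), zero_div]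

theorem abs_momentSum_bounds {n j : ℕ} (h : n ≤ j) :
    |p| ^ tri n / 16 ≤ |momentSum p q n j| ∧ |momentSum p q n j| ≤ 16 * |p| ^ tri n := by
  obtain ⟨a1, a2⟩ := prod_abs_bounds hr n (fun l => p ^ (j - (n - 1 - l))) fun l hl => by
    rw [abs_pow]
    exact pow_le_pow_of_le_one (abs_nonneg _) (by linarith) (by omega)
  obtain ⟨b1, b2⟩ := prod_abs_bounds hr (n + 1) (fun l => p ^ l * p ^ (j + 1)) fun l _ => by
    rw [← pow_add, abs_pow]
    exact pow_le_pow_of_le_one (abs_nonneg _) (by linarith) (by omega)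
  have e : ∏ t ∈ range n, |p ^ (t + 1) - p ^ (j + 1)| =
      |p| ^ tri n * ∏ t ∈ range n, |1 - p ^ (j - (n - 1 - t))| := by
    rw [prod_range_reflect (fun t => |1 - p ^ (j - t)|) n, tri, ← prod_pow_eq_pow_sum,
      ← prod_mul_distrib]
    refine prod_congr rfl fun t ht => ?_
    have := mem_range.1 ht
    rw [← abs_pow, ← abs_mul, mul_sub, mul_one, ← pow_add, show t + 1 + (j - t) = j + 1 by omega]
  rw [momentSum_eq hr hpq, abs_div, abs_prod, abs_prod, e]
  have hT : 0 ≤ |p| ^ tri n := pow_nonneg (abs_nonneg _) _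
  constructor
  · rw [le_div_iff₀ (by linarith)]
    calc |p| ^ tri n / 16 * ∏ l ∈ range (n + 1), |1 - p ^ l * p ^ (j + 1)|
        ≤ |p| ^ tri n / 16 * 4 := by gcongr
      _ = |p| ^ tri n * (1 / 4) := by ring
      _ ≤ _ := by gcongr
  · rw [div_le_iff₀ (by linarith)]
    calc |p| ^ tri n * ∏ t ∈ range n, |1 - p ^ (j - (n - 1 - t))| ≤ |p| ^ tri n * 4 := by gcongr
      _ = 16 * |p| ^ tri n * (1 / 4) := by ring
      _ ≤ _ := by gcongr

theorem borweinForm_bounds {x L : ℝ} (n : ℕ) (hx : 1 < |x|) (hsmall : |x|⁻¹ ≤ 1 / 1000)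
    (hL : HasSum (fun k : ℕ => p ^ k / (x - p ^ k)) L) :
    borweinForm p q x L n ≠ 0 ∧
      |borweinForm p q x L n| ≤ 20 * |p| ^ tri n * |x|⁻¹ ^ (n + 1) := by
  have hp : p ≠ 0 := left_ne_zero_of_mul_eq_one hpq
  have h := hasSum_expansion hr hx hL q n
  rw [← hasSum_nat_add_iff' (n + 1), sum_range_succ, sum_eq_zero fun j hj => by
    rw [momentSum_of_lt hr hpq (mem_range.1 hj), mul_zero], zero_add] at h
  set X := |x|⁻¹ with hX
  have hX0 : 0 < X := inv_pos.2 (by linarith)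
  have hg := (hasSum_geometric_of_lt_one hX0.le (show X < 1 by linarith)).mul_left
    (16 * |p| ^ tri n * X ^ (n + 2))
  have hrest := tsum_of_norm_bounded hg (f := fun j => x⁻¹ ^ (j + (n + 1) + 1) *
      momentSum p q n (j + (n + 1))) fun j => by
    rw [Real.norm_eq_abs, abs_mul, abs_pow, abs_inv, ← hX]
    refine (mul_le_mul_of_nonneg_left (abs_momentSum_bounds hr hpq
      (show n ≤ j + (n + 1) by omega)).2
      (pow_nonneg hX0.le _)).trans (le_of_eq ?_)
    ring
  rw [h.tsum_eq, Real.norm_eq_abs] at hrest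
  have hinv : (1 - X)⁻¹ ≤ 1000 / 999 := by
    rw [inv_le_iff_one_le_mul₀ (by linarith)]
    linarith
  have hX1 : 0 ≤ (1 - X)⁻¹ := inv_nonneg.2 (by linarith)
  have hT : 0 < |p| ^ tri n := pow_pos (abs_pos.2 hp) _
  have hXn : 0 < X ^ (n + 1) := pow_pos hX0 _
  have hR : |borweinForm p q x L n - x⁻¹ ^ (n + 1) * momentSum p q n n| ≤
      |p| ^ tri n * X ^ (n + 1) / 32 := by
    refine hrest.trans ?_
    calc 16 * |p| ^ tri n * X ^ (n + 2) * (1 - X)⁻¹
        = 16 * |p| ^ tri n * X ^ (n + 1) * (X * (1 - X)⁻¹) := by ring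
      _ ≤ 16 * |p| ^ tri n * X ^ (n + 1) * (1 / 1000 * (1000 / 999)) := by gcongr
      _ ≤ _ := by nlinarith [mul_pos hT hXn]
  obtain ⟨f1, f2⟩ := abs_momentSum_bounds hr hpq (le_refl n)
  have hlead : |x⁻¹ ^ (n + 1) * momentSum p q n n| = X ^ (n + 1) * |momentSum p q n n| := by
    rw [abs_mul, abs_pow, abs_inv]
  refine ⟨fun h0 => ?_, ?_⟩
  · rw [h0, zero_sub, abs_neg, hlead] at hR
    nlinarith [mul_le_mul_of_nonneg_left f1 hXn.le, mul_pos hT hXn]
  · have h1 := abs_sub_abs_le_abs_sub (borweinForm p q x L n) (x⁻¹ ^ (n + 1) * momentSum p q n n)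
    rw [hlead] at h1
    nlinarith [mul_le_mul_of_nonneg_left f2 hXn.le, mul_pos hT hXn]

end FA.BorweinSeries
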